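import Mathlib
import Fermat.Prelude.Def_EllipticCurve_FrobeniusTrace
import Fermat.Agent.Lib.Cheb.Spec

/-!
# CHEB consumers' forms (helper956)

Adapters from the Prelude-level interface statements `Spec.FrobeniusDivisionStatement` (Tier 1)
and `Spec.ChebotarevStatement` (Tier 2), which speak about finite extensions `E ⊆ ℚ̄`, to the
forms used by clients: group homomorphisms `ρ : Gal(ℚ̄/ℚ) →* G` with open kernel (for instance
continuous homomorphisms to discrete groups), pairs of such homomorphisms, and statements about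
*all* Frobenius elements over the prime found.

* `frobeniusDivision_hom` : Tier 1 for `ρ` with open kernel.
* `frobeniusDivision_hom_pair` : Tier 1 simultaneously for two homomorphisms (same exponents).
* `chebotarev_hom`, `chebotarev_hom_pair` : Tier 2 analogues.
* `map_eq_of_isFrobeniusAt` : if inertia at `A` lies in the kernel of `ρ`, then `ρ` takes the
  same value on all Frobenius elements at `A`.
-/

set_option autoImplicit false

namespace Fermat.Agent.Lib.Cheb.H956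

open Fermat.Agent.Lib.Cheb.Spec

/-- Every open subgroup of `Gal(ℚ̄/ℚ)` contains the fixing subgroup of a finite extension. -/
theorem exists_fixingSubgroup_le (U : Subgroup GQ) (hU : IsOpen (U : Set GQ)) :
    ∃ E : IntermediateField ℚ Qb, FiniteDimensional ℚ E ∧ E.fixingSubgroup ≤ U := by
  have h1 : (U : Set GQ) ∈ nhds 1 := hU.mem_nhds U.one_mem
  obtain ⟨E, hE, hEU⟩ := (krullTopology_mem_nhds_one_iff ℚ Qb _).mp h1
  exact ⟨E, hE, hEU⟩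

/-- If `τ` and `σ` agree on `E` then `σ⁻¹ * τ` fixes `E`. -/
theorem inv_mul_mem_fixingSubgroup (E : IntermediateField ℚ Qb) {τ σ : GQ}
    (h : ∀ x ∈ E, τ x = σ x) : σ⁻¹ * τ ∈ E.fixingSubgroup := by
  rw [IntermediateField.mem_fixingSubgroup_iff]
  intro x hx
  rw [AlgEquiv.mul_apply, h x hx]
  exact σ.symm_apply_apply x

/-- If `τ` and `σ` agree on `E` and the fixing subgroup of `E` lies in the kernel of `ρ`, then
`ρ τ = ρ σ`. -/
theorem map_eq_of_eqOn {G : Type*} [Group G] (ρ : GQ →* G) (E : IntermediateField ℚ Qb)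
    (hE : E.fixingSubgroup ≤ ρ.ker) {τ σ : GQ} (h : ∀ x ∈ E, τ x = σ x) : ρ τ = ρ σ := by
  have hmem := hE (inv_mul_mem_fixingSubgroup E h)
  rw [MonoidHom.mem_ker, map_mul, map_inv, inv_mul_eq_one] at hmem
  exact hmem.symm

/-- An element fixing `E` pointwise is killed by `ρ`. -/
theorem map_eq_one_of_fixes {G : Type*} [Group G] (ρ : GQ →* G) (E : IntermediateField ℚ Qb)
    (hE : E.fixingSubgroup ≤ ρ.ker) {ι : GQ} (h : ∀ x ∈ E, ι x = x) : ρ ι = 1 := by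
  have := map_eq_of_eqOn ρ E hE (τ := ι) (σ := 1) (fun x hx => by simpa using h x hx)
  simpa using this

/-- The kernel of a continuous homomorphism to a discrete group is open. -/
theorem isOpen_ker_of_continuous {G : Type*} [Group G] [TopologicalSpace G]
    [DiscreteTopology G] (ρ : GQ →* G) (hρ : Continuous ρ) : IsOpen (ρ.ker : Set GQ) := by
  have : (ρ.ker : Set GQ) = ρ ⁻¹' {1} := by
    ext x
    simp [MonoidHom.mem_ker]
  rw [this]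
  exact (isOpen_discrete _).preimage hρ

/-- **Tier 1 for homomorphisms with open kernel.**  For every `σ` and every finite set `S` of
primes there is a Frobenius element `τ` at a prime `ℓ ∉ S`, with inertia killed by `ρ`, such
that `ρ τ` and `ρ σ` are powers of each other. -/
theorem frobeniusDivision_hom (H : FrobeniusDivisionStatement) {G : Type*} [Group G]
    (ρ : GQ →* G) (hρ : IsOpen (ρ.ker : Set GQ)) (σ : GQ) (S : Finset ℕ) :
    ∃ (ℓ : ℕ) (A : ValuationSubring Qb) (τ : GQ) (k j : ℕ),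
      ℓ.Prime ∧ ℓ ∉ S ∧ A.LiesOverPrime ℓ ∧ A.IsFrobeniusAt τ ℓ ∧
      (∀ ι ∈ A.inertiaSubgroupIn ℚ, ρ ι = 1) ∧ ρ τ = ρ σ ^ k ∧ ρ τ ^ j = ρ σ := by
  obtain ⟨E, hEfin, hE⟩ := exists_fixingSubgroup_le ρ.ker hρ
  obtain ⟨ℓ, A, τ, k, j, hℓ, hℓS, hA, hτ, hin, hk, hj⟩ := H E hEfin σ S
  refine ⟨ℓ, A, τ, k, j, hℓ, hℓS, hA, hτ, fun ι hι => ?_, ?_, ?_⟩
  · exact map_eq_one_of_fixes ρ E hE (hin ι hι)
  · rw [← map_pow]
    exact map_eq_of_eqOn ρ E hE hk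
  · rw [← map_pow]
    exact map_eq_of_eqOn ρ E hE hj

/-- **Tier 1 for two homomorphisms with open kernels**, with the same Frobenius element and
the same exponents for both. -/
theorem frobeniusDivision_hom_pair (H : FrobeniusDivisionStatement) {G₁ G₂ : Type*} [Group G₁]
    [Group G₂] (ρ₁ : GQ →* G₁) (ρ₂ : GQ →* G₂) (hρ₁ : IsOpen (ρ₁.ker : Set GQ))
    (hρ₂ : IsOpen (ρ₂.ker : Set GQ)) (σ : GQ) (S : Finset ℕ) :
    ∃ (ℓ : ℕ) (A : ValuationSubring Qb) (τ : GQ) (k j : ℕ),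
      ℓ.Prime ∧ ℓ ∉ S ∧ A.LiesOverPrime ℓ ∧ A.IsFrobeniusAt τ ℓ ∧
      (∀ ι ∈ A.inertiaSubgroupIn ℚ, ρ₁ ι = 1 ∧ ρ₂ ι = 1) ∧
      (ρ₁ τ = ρ₁ σ ^ k ∧ ρ₁ τ ^ j = ρ₁ σ) ∧ (ρ₂ τ = ρ₂ σ ^ k ∧ ρ₂ τ ^ j = ρ₂ σ) := by
  have hker : IsOpen ((ρ₁.prod ρ₂).ker : Set GQ) := by
    have : ((ρ₁.prod ρ₂).ker : Set GQ) = (ρ₁.ker : Set GQ) ∩ (ρ₂.ker : Set GQ) := by
      ext x
      simp [MonoidHom.mem_ker, Prod.ext_iff]
    rw [this]
    exact hρ₁.inter hρ₂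
  obtain ⟨ℓ, A, τ, k, j, hℓ, hℓS, hA, hτ, hin, hk, hj⟩ :=
    frobeniusDivision_hom H (ρ₁.prod ρ₂) hker σ S
  refine ⟨ℓ, A, τ, k, j, hℓ, hℓS, hA, hτ, fun ι hι => ?_, ⟨?_, ?_⟩, ⟨?_, ?_⟩⟩
  · have := hin ι hι
    simpa [Prod.ext_iff] using this
  · exact congrArg Prod.fst hk
  · exact congrArg Prod.fst hj
  · exact congrArg Prod.snd hk
  · exact congrArg Prod.snd hj

/-- **Tier 2 for homomorphisms with open kernel.**  Every value `ρ σ` is the value of `ρ` at a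
Frobenius element at a prime `ℓ ∉ S`, with inertia killed by `ρ`. -/
theorem chebotarev_hom (H : ChebotarevStatement) {G : Type*} [Group G]
    (ρ : GQ →* G) (hρ : IsOpen (ρ.ker : Set GQ)) (σ : GQ) (S : Finset ℕ) :
    ∃ (ℓ : ℕ) (A : ValuationSubring Qb) (τ : GQ),
      ℓ.Prime ∧ ℓ ∉ S ∧ A.LiesOverPrime ℓ ∧ A.IsFrobeniusAt τ ℓ ∧
      (∀ ι ∈ A.inertiaSubgroupIn ℚ, ρ ι = 1) ∧ ρ τ = ρ σ := by
  obtain ⟨E, hEfin, hE⟩ := exists_fixingSubgroup_le ρ.ker hρ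
  obtain ⟨ℓ, A, τ, hℓ, hℓS, hA, hτ, hin, hσ⟩ := H E hEfin σ S
  exact ⟨ℓ, A, τ, hℓ, hℓS, hA, hτ, fun ι hι => map_eq_one_of_fixes ρ E hE (hin ι hι),
    map_eq_of_eqOn ρ E hE hσ⟩

/-- **Tier 2 for two homomorphisms with open kernels.** -/
theorem chebotarev_hom_pair (H : ChebotarevStatement) {G₁ G₂ : Type*} [Group G₁]
    [Group G₂] (ρ₁ : GQ →* G₁) (ρ₂ : GQ →* G₂) (hρ₁ : IsOpen (ρ₁.ker : Set GQ))
    (hρ₂ : IsOpen (ρ₂.ker : Set GQ)) (σ : GQ) (S : Finset ℕ) :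
    ∃ (ℓ : ℕ) (A : ValuationSubring Qb) (τ : GQ),
      ℓ.Prime ∧ ℓ ∉ S ∧ A.LiesOverPrime ℓ ∧ A.IsFrobeniusAt τ ℓ ∧
      (∀ ι ∈ A.inertiaSubgroupIn ℚ, ρ₁ ι = 1 ∧ ρ₂ ι = 1) ∧ ρ₁ τ = ρ₁ σ ∧ ρ₂ τ = ρ₂ σ := by
  have hker : IsOpen ((ρ₁.prod ρ₂).ker : Set GQ) := by
    have : ((ρ₁.prod ρ₂).ker : Set GQ) = (ρ₁.ker : Set GQ) ∩ (ρ₂.ker : Set GQ) := by
      ext x
      simp [MonoidHom.mem_ker, Prod.ext_iff]
    rw [this]
    exact hρ₁.inter hρ₂
  obtain ⟨ℓ, A, τ, hℓ, hℓS, hA, hτ, hin, hσ⟩ := chebotarev_hom H (ρ₁.prod ρ₂) hker σ S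
  refine ⟨ℓ, A, τ, hℓ, hℓS, hA, hτ, fun ι hι => ?_, congrArg Prod.fst hσ, congrArg Prod.snd hσ⟩
  have := hin ι hι
  simpa [Prod.ext_iff] using this

/-- Tier 2 implies Tier 1. -/
theorem frobeniusDivision_of_chebotarev (H : ChebotarevStatement) :
    FrobeniusDivisionStatement := by
  intro E hE σ S
  obtain ⟨ℓ, A, τ, hℓ, hℓS, hA, hτ, hin, hσ⟩ := H E hE σ S
  exact ⟨ℓ, A, τ, 1, 1, hℓ, hℓS, hA, hτ, hin, fun x hx => by simpa using hσ x hx,
    fun x hx => by simpa using hσ x hx⟩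

/-- Two Frobenius elements at the same valuation subring differ by an element of the inertia
group. -/
theorem mul_inv_mem_inertiaSubgroupIn {A : ValuationSubring Qb} {τ τ' : GQ} {q : ℕ}
    (h : A.IsFrobeniusAt τ q) (h' : A.IsFrobeniusAt τ' q) :
    τ' * τ⁻¹ ∈ A.inertiaSubgroupIn ℚ := by
  obtain ⟨hτ, hτF⟩ := h
  obtain ⟨hτ', hτ'F⟩ := h'
  have hmem : τ' * τ⁻¹ ∈ A.decompositionSubgroup ℚ :=
    (A.decompositionSubgroup ℚ).mul_mem hτ' ((A.decompositionSubgroup ℚ).inv_mem hτ)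
  refine ⟨⟨τ' * τ⁻¹, hmem⟩, MonoidHom.mem_ker.mpr ?_, rfl⟩
  ext x
  show (⟨τ' * τ⁻¹, hmem⟩ : A.decompositionSubgroup ℚ) • x = x
  have h3 : (⟨τ' * τ⁻¹, hmem⟩ : A.decompositionSubgroup ℚ) =
      (⟨τ', hτ'⟩ : A.decompositionSubgroup ℚ) * (⟨τ, hτ⟩ : A.decompositionSubgroup ℚ)⁻¹ := rfl
  rw [h3, mul_smul, hτ'F, ← hτF, smul_inv_smul]

/-- If `ρ` kills the inertia group at `A`, it takes the same value on all Frobenius elements
at `A`. -/
theorem map_eq_of_isFrobeniusAt {G : Type*} [Group G] (ρ : GQ →* G) {A : ValuationSubring Qb}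
    (hin : ∀ ι ∈ A.inertiaSubgroupIn ℚ, ρ ι = 1) {τ τ' : GQ} {q : ℕ}
    (h : A.IsFrobeniusAt τ q) (h' : A.IsFrobeniusAt τ' q) : ρ τ' = ρ τ := by
  have := hin _ (mul_inv_mem_inertiaSubgroupIn h h')
  rwa [map_mul, map_inv, mul_inv_eq_one] at this

end Fermat.Agent.Lib.Cheb.H956
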